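import Mathlib.LinearAlgebra.QuadraticForm.Prod
import Mathlib.LinearAlgebra.FiniteDimensional.Lemmas
import Mathlib.Algebra.Field.ZMod
import Mathlib.FieldTheory.Finiteness
import Mathlib.LinearAlgebra.Dual.Lemmas

/-!
# The Arf invariant

Over the field with two elements the sum of `(-1) ^ Q` squares to the number of vectors, so gives
the number of zeros. If a nonzero zero exists a hyperbolic plane splits off, and otherwise the form
is one on every nonzero vector; so dimension and sum determine the form.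
-/

set_option autoImplicit false

noncomputable section

namespace FA.Arf

open QuadraticMap (polar)

/-- The character. -/
def sgn (a : ZMod 2) : ℤ :=
  if a = 0 then 1 else -1

theorem sgn_add : ∀ a b : ZMod 2, sgn (a + b) = sgn a * sgn b := by decide

theorem sgn_mul_sgn : ∀ a b c : ZMod 2, sgn a * sgn (a + b + c) = sgn b * sgn c := by decide

theorem sgn_one : sgn 1 = -1 := rfl

variable {V : Type*} [AddCommGroup V] [Module (ZMod 2) V]

/-- The polar form has no radical. -/
def Nondeg (Q : QuadraticForm (ZMod 2) V) : Prop :=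
  ∀ v, (∀ w, polar Q v w = 0) → v = 0

/-- The sum of the signs. -/
def gaussSum [Fintype V] (Q : QuadraticForm (ZMod 2) V) : ℤ :=
  ∑ v, sgn (Q v)

theorem map_add_eq (Q : QuadraticForm (ZMod 2) V) (v w : V) :
    Q (v + w) = Q v + Q w + polar Q v w :=
  QuadraticMap.map_add Q v w

theorem polar_self_eq_zero (Q : QuadraticForm (ZMod 2) V) (v : V) : polar Q v v = 0 := by
  rw [QuadraticMap.polar_self, two_nsmul]
  exact ZModModule.add_self _

theorem sum_sgn_eq_zero [Fintype V] (φ : V →ₗ[ZMod 2] ZMod 2) {v : V} (h : φ v = 1) :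
    ∑ w, sgn (φ w) = 0 := by
  have e : ∑ w, sgn (φ w) = ∑ w, sgn (φ (v + w)) :=
    (Equiv.sum_comp (Equiv.addLeft v) fun w => sgn (φ w)).symm
  simp only [map_add, sgn_add, h, sgn_one, neg_mul, one_mul, Finset.sum_neg_distrib] at e
  omega

theorem eq_one_of_ne_zero : ∀ a : ZMod 2, a ≠ 0 → a = 1 := by decide

/-- **The square of the sum.** -/
theorem gaussSum_sq [Fintype V] {Q : QuadraticForm (ZMod 2) V} (hQ : Nondeg Q) :
    gaussSum Q ^ 2 = Fintype.card V := by
  classical
  calc gaussSum Q ^ 2 = ∑ v, ∑ u, sgn (Q v) * sgn (Q (v + u)) := by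
        rw [sq, gaussSum, Finset.sum_mul]
        refine Finset.sum_congr rfl fun v _ => ?_
        rw [Finset.mul_sum]
        exact (Equiv.sum_comp (Equiv.addLeft v) fun w => sgn (Q v) * sgn (Q w)).symm
    _ = ∑ u, sgn (Q u) * ∑ v, sgn (QuadraticMap.polarBilin Q u v) := by
        rw [Finset.sum_comm]
        refine Finset.sum_congr rfl fun u _ => ?_
        rw [Finset.mul_sum]
        refine Finset.sum_congr rfl fun v _ => ?_
        rw [map_add_eq, sgn_mul_sgn, QuadraticMap.polar_comm]
        rfl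
    _ = sgn (Q 0) * ∑ v, sgn (QuadraticMap.polarBilin Q 0 v) := by
        refine Finset.sum_eq_single (0 : V) (fun u _ hu => ?_) (by simp)
        obtain ⟨v, hv⟩ : ∃ v, polar Q u v ≠ 0 := by
          by_contra hc
          simp only [not_exists, not_not] at hc
          exact hu (hQ u hc)
        rw [sum_sgn_eq_zero (QuadraticMap.polarBilin Q u) (v := v) (eq_one_of_ne_zero _ hv),
          mul_zero]
    _ = Fintype.card V := by simp [sgn]

/-- The number of zeros. -/
theorem two_mul_card_zeros [Fintype V] (Q : QuadraticForm (ZMod 2) V) :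
    2 * ((Finset.univ.filter fun v => Q v = 0).card : ℤ) = Fintype.card V + gaussSum Q := by
  have h : ∀ v, (2 : ℤ) * (if Q v = 0 then 1 else 0) = 1 + sgn (Q v) := fun v => by
    unfold sgn
    split_ifs <;> norm_num
  rw [Finset.card_filter]
  push_cast
  rw [Finset.mul_sum, Finset.sum_congr rfl fun v _ => h v, Finset.sum_add_distrib]
  simp [gaussSum]

/-- **The dimension is even.** -/
theorem exists_gaussSum_eq [Fintype V] {Q : QuadraticForm (ZMod 2) V} (hQ : Nondeg Q) :
    ∃ m : ℕ, Module.finrank (ZMod 2) V = 2 * m ∧ (gaussSum Q = 2 ^ m ∨ gaussSum Q = -2 ^ m) := by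
  have hcard : Fintype.card V = 2 ^ Module.finrank (ZMod 2) V := by
    rw [Module.card_eq_pow_finrank (K := ZMod 2), ZMod.card]
  have h := gaussSum_sq hQ
  rw [hcard] at h
  have hn : (gaussSum Q).natAbs ^ 2 = 2 ^ Module.finrank (ZMod 2) V := by
    zify
    rw [sq_abs]
    exact_mod_cast h
  obtain ⟨j, -, hj⟩ := (Nat.dvd_prime_pow Nat.prime_two).1 (hn ▸ dvd_pow_self _ two_ne_zero)
  rw [hj, ← pow_mul] at hn
  refine ⟨j, by rw [mul_comm]; exact (Nat.pow_right_injective le_rfl hn).symm, ?_⟩
  rcases Int.natAbs_eq (gaussSum Q) with e | e <;> rw [hj] at e <;> push_cast at e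
  · exact Or.inl e
  · exact Or.inr e

/-- **Splitting a hyperbolic plane.** -/
theorem exists_split [Fintype V] {Q : QuadraticForm (ZMod 2) V} (hQ : Nondeg Q) {v : V} (hv : v ≠ 0)
    (h0 : Q v = 0) :
    ∃ (W : Submodule (ZMod 2) V) (T : V ≃ₗ[ZMod 2] (ZMod 2 × ZMod 2) × W),
      Nondeg (Q.comp W.subtype) ∧ ∀ x, Q x = (T x).1.1 * (T x).1.2 + Q.comp W.subtype (T x).2 := by
  obtain ⟨w₀, hw₀⟩ : ∃ w, polar Q v w ≠ 0 := by
    by_contra hc
    simp only [not_exists, not_not] at hc
    exact hv (hQ v hc)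
  set B := QuadraticMap.polarBilin Q
  have hB1 : B v w₀ = 1 := eq_one_of_ne_zero _ hw₀
  set w := w₀ + Q w₀ • v
  have hvv : B v v = 0 := polar_self_eq_zero Q v
  have hvw : B v w = 1 := by rw [map_add, map_smul, hB1, hvv, smul_zero, add_zero]
  have hw : Q w = 0 := by
    rw [map_add_eq, QuadraticMap.map_smul, h0, smul_zero, add_zero]
    show Q w₀ + B w₀ (Q w₀ • v) = 0
    rw [map_smul, show B w₀ v = 1 from (QuadraticMap.polar_comm Q w₀ v).trans hB1, smul_eq_mul,
      mul_one]
    exact ZModModule.add_self _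
  clear_value w
  have hww : B w w = 0 := polar_self_eq_zero Q w
  have hwv : B w v = 1 := (QuadraticMap.polar_comm Q w v).trans hvw
  set W : Submodule (ZMod 2) V := LinearMap.ker (B v) ⊓ LinearMap.ker (B w)
  have hmem : ∀ x, x + B w x • v + B v x • w ∈ W := fun x => by
    refine Submodule.mem_inf.2 ⟨LinearMap.mem_ker.2 ?_, LinearMap.mem_ker.2 ?_⟩
    · simp [hvv, hvw, ZModModule.add_self]
    · simp [hww, hwv, ZModModule.add_self]
  have hcancel : ∀ p q r : V, p + q + r + p + q = r := fun p q r => by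
    rw [show p + q + r + p + q = r + (p + p) + (q + q) by abel, ZModModule.add_self,
      ZModModule.add_self, add_zero, add_zero]
  let T : V ≃ₗ[ZMod 2] (ZMod 2 × ZMod 2) × W :=
    { toFun := fun x => ((B w x, B v x), ⟨_, hmem x⟩)
      map_add' := fun x y => Prod.ext (Prod.ext (map_add _ _ _) (map_add _ _ _)) (Subtype.ext (by
        show x + y + B w (x + y) • v + B v (x + y) • w =
          x + B w x • v + B v x • w + (y + B w y • v + B v y • w)
        rw [map_add, map_add, add_smul, add_smul]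
        abel))
      map_smul' := fun t x => Prod.ext (Prod.ext (map_smul _ _ _) (map_smul _ _ _)) (Subtype.ext (by
        show t • x + B w (t • x) • v + B v (t • x) • w = t • (x + B w x • v + B v x • w)
        rw [map_smul, map_smul, smul_add, smul_add, smul_assoc, smul_assoc]))
      invFun := fun p => p.1.1 • v + p.1.2 • w + (p.2 : V)
      left_inv := fun x => by
        show B w x • v + B v x • w + (x + B w x • v + B v x • w) = x
        rw [← add_assoc, ← add_assoc]
        exact hcancel _ _ x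
      right_inv := fun p => by
        have h1 : B v p.2 = 0 := (Submodule.mem_inf.1 p.2.2).1
        have h2 : B w p.2 = 0 := (Submodule.mem_inf.1 p.2.2).2
        have e1 : B w (p.1.1 • v + p.1.2 • w + (p.2 : V)) = p.1.1 := by
          simp only [map_add, map_smul, hwv, hww, h2, smul_eq_mul, mul_one, mul_zero, add_zero]
        have e2 : B v (p.1.1 • v + p.1.2 • w + (p.2 : V)) = p.1.2 := by
          simp only [map_add, map_smul, hvv, hvw, h1, smul_eq_mul, mul_one, mul_zero, add_zero,
            zero_add]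
        refine Prod.ext (Prod.ext e1 e2) (Subtype.ext ?_)
        show (_ : V) + B w _ • v + B v _ • w = (p.2 : V)
        rw [e1, e2]
        exact hcancel _ _ _ }
  refine ⟨W, T, fun u hu => Subtype.ext (hQ u fun x => ?_), fun x => ?_⟩
  · have h1 : B v u = 0 := (Submodule.mem_inf.1 u.2).1
    have h2 : B w u = 0 := (Submodule.mem_inf.1 u.2).2
    have h3 := hu ⟨_, hmem x⟩
    have h4 : B u (x + B w x • v + B v x • w) = 0 := h3
    rw [map_add, map_add, map_smul, map_smul,
      show B u v = 0 from (QuadraticMap.polar_comm Q u v).trans h1,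
      show B u w = 0 from (QuadraticMap.polar_comm Q u w).trans h2] at h4
    show B u x = 0
    simpa using h4
  · set a := (T x).1.1
    set b := (T x).1.2
    set r := (T x).2
    have hx : x = a • v + b • w + (r : V) := (T.symm_apply_apply x).symm
    have h1 : B v r = 0 := (Submodule.mem_inf.1 r.2).1
    have h2 : B w r = 0 := (Submodule.mem_inf.1 r.2).2
    rw [hx, map_add_eq, map_add_eq, QuadraticMap.map_smul, QuadraticMap.map_smul, h0, hw,
      QuadraticMap.comp_apply]
    show _ + B (a • v) (b • w) + Q r + B (a • v + b • w) r = _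
    simp [hvw, h1, h2]
    ring

theorem gaussSum_congr {V' : Type*} [AddCommGroup V'] [Module (ZMod 2) V'] [Fintype V] [Fintype V']
    (e : V ≃ V') {Q : QuadraticForm (ZMod 2) V} {Q' : QuadraticForm (ZMod 2) V'}
    (h : ∀ v, Q' (e v) = Q v) : gaussSum Q = gaussSum Q' :=
  Fintype.sum_equiv e _ _ fun v => by rw [h]

theorem gaussSum_of_split [Fintype V] {W : Type*} [AddCommGroup W] [Module (ZMod 2) W] [Fintype W]
    {Q : QuadraticForm (ZMod 2) V} {R : QuadraticForm (ZMod 2) W}
    (T : V ≃ₗ[ZMod 2] (ZMod 2 × ZMod 2) × W)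
    (hT : ∀ x, Q x = (T x).1.1 * (T x).1.2 + R (T x).2) : gaussSum Q = 2 * gaussSum R := by
  unfold gaussSum
  rw [Fintype.sum_equiv T.toEquiv _ (fun p => sgn (p.1.1 * p.1.2) * sgn (R p.2)) fun x => by
      rw [hT, sgn_add]; rfl, Fintype.sum_prod_type]
  simp only [← Finset.mul_sum, ← Finset.sum_mul]
  congr 1

/-- **Classification.** -/
theorem equivalent_of_eq : ∀ (n : ℕ) {V₁ : Type*} {V₂ : Type*} [AddCommGroup V₁] [AddCommGroup V₂]
    [Module (ZMod 2) V₁] [Module (ZMod 2) V₂] [Fintype V₁] [Fintype V₂]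
    {Q₁ : QuadraticForm (ZMod 2) V₁} {Q₂ : QuadraticForm (ZMod 2) V₂}, Nondeg Q₁ → Nondeg Q₂ →
    Module.finrank (ZMod 2) V₁ = n → Module.finrank (ZMod 2) V₂ = n →
    gaussSum Q₁ = gaussSum Q₂ → Q₁.Equivalent Q₂ := by
  intro n
  induction n using Nat.strong_induction_on with
  | _ n ih =>
    intro V₁ V₂ _ _ _ _ _ _ Q₁ Q₂ h1 h2 hn1 hn2 hS
    classical
    have hcard : Fintype.card V₁ = Fintype.card V₂ := by
      rw [Module.card_eq_pow_finrank (K := ZMod 2) (V := V₁),
        Module.card_eq_pow_finrank (K := ZMod 2) (V := V₂), hn1, hn2]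
    have hzeros : (Finset.univ.filter fun v => Q₁ v = 0).card =
        (Finset.univ.filter fun v => Q₂ v = 0).card := by
      have e1 := two_mul_card_zeros Q₁
      have e2 := two_mul_card_zeros Q₂
      rw [hcard, hS] at e1
      omega
    by_cases hiso : ∃ v, v ≠ 0 ∧ Q₁ v = 0
    · obtain ⟨v₁, hv₁, hQ₁⟩ := hiso
      obtain ⟨v₂, hv₂, hQ₂⟩ : ∃ v, v ≠ 0 ∧ Q₂ v = 0 := by
        have : 1 < (Finset.univ.filter fun v => Q₂ v = 0).card := by
          rw [← hzeros, Finset.one_lt_card]
          exact ⟨v₁, by simp [hQ₁], 0, by simp, hv₁⟩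
        obtain ⟨v, hv, hne⟩ := Finset.exists_mem_ne this 0
        exact ⟨v, hne, (Finset.mem_filter.1 hv).2⟩
      obtain ⟨W₁, T₁, hW₁, hT₁⟩ := exists_split h1 hv₁ hQ₁
      obtain ⟨W₂, T₂, hW₂, hT₂⟩ := exists_split h2 hv₂ hQ₂
      have e1 := T₁.finrank_eq
      have e2 := T₂.finrank_eq
      rw [Module.finrank_prod, Module.finrank_prod, Module.finrank_self, hn1] at e1
      rw [Module.finrank_prod, Module.finrank_prod, Module.finrank_self, hn2] at e2
      obtain ⟨f⟩ := ih (n - 2) (by omega) hW₁ hW₂ (by omega) (by omega) (by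
        have s1 := gaussSum_of_split T₁ hT₁
        have s2 := gaussSum_of_split T₂ hT₂
        omega)
      refine ⟨{ T₁.trans (((LinearEquiv.refl _ _).prodCongr f.toLinearEquiv).trans T₂.symm) with
        map_app' := fun x => ?_ }⟩
      show Q₂ (T₂.symm ((T₁ x).1, f.toLinearEquiv (T₁ x).2)) = Q₁ x
      rw [hT₂, LinearEquiv.apply_symm_apply, hT₁]
      exact congrArg _ (f.map_app _)
    · have hone : (Finset.univ.filter fun v => Q₁ v = 0).card = 1 :=
        Finset.card_eq_one.2 ⟨0, Finset.ext fun v => by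
          simp only [Finset.mem_filter, Finset.mem_univ, true_and, Finset.mem_singleton]
          exact ⟨fun h => by_contra fun hne => hiso ⟨v, hne, h⟩, fun h => by simp [h]⟩⟩
      refine ⟨{ LinearEquiv.ofFinrankEq V₁ V₂ (hn1.trans hn2.symm) with map_app' := fun x => ?_ }⟩
      set L := LinearEquiv.ofFinrankEq (R := ZMod 2) V₁ V₂ (hn1.trans hn2.symm)
      show Q₂ (L x) = Q₁ x
      rcases eq_or_ne x 0 with rfl | hx
      · simp
      · rw [eq_one_of_ne_zero (Q₁ x) fun h => hiso ⟨x, hx, h⟩]
        refine eq_one_of_ne_zero _ fun h => hx (L.map_eq_zero_iff.1 ?_)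
        rw [hzeros] at hone
        exact Finset.card_le_one.1 hone.le _ (Finset.mem_filter.2 ⟨Finset.mem_univ _, h⟩) _
          (Finset.mem_filter.2 ⟨Finset.mem_univ _, QuadraticMap.map_zero Q₂⟩)

end FA.Arf
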